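import Fermat.Agent.S30x.Kum.H9_KSysFinal
import Fermat.Agent.S30x.Ev.H23_MatDefs

/-!
# W8 (S30) / W9 (S31), leaf (A) [KSYS]: the saturation form of the independence (helper9)

For a family `b : Fin d → Lam` which is saturated modulo `m`
(`m ∣ ∑ c_j b_j(γ)` for all `γ` implies `m ∣ c_j`; e.g. a `ℤ`-basis of `Lam`):

* `h9_hli_of_sat`  : the reductions of the `b_j` are linearly independent over `ZMod p`
                     (the hypothesis `hli` of `h9_ksys` / `h23_top_eigen`);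
* `h9_ksys_sat`    : `h9_ksys` with the saturation hypothesis instead of `hli`;
* `h9_ksys_level`  : the finite level `m` (for W9): classes `x_j ∈ J₀(N)[p ^ m]`,
                     independent modulo `p ^ m`, with the matrices `t ℓ` of `T_ℓ`;
* `h9kap`, `h9kap_spec`, `h9kap_hind`, `h9kap_hT`, `h9_ksys_mat` : the instance for helper23's
                     basis `h23mB N` of `Lam` and matrices `h23mT N ℓ`.
-/

set_option autoImplicit false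
set_option synthInstance.maxHeartbeats 400000
set_option maxHeartbeats 1000000
set_option linter.style.haveILetI false

open AlgebraicCurve IntermediateField ModularCurve ModularCurve.Period UpperHalfPlane
open CongruenceSubgroup
open Fermat.Agent.S24.Mer Fermat.Agent.S22 Fermat.Agent.S16x.Low.H5
open Fermat.Agent.S42x.Kum.H12 Fermat.Agent.S30x.Mod.H18
open scoped MatrixGroups

noncomputable section

namespace Fermat.Agent.S30x.Kum.H9

variable {N : ℕ}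

/-- saturation modulo `p` gives linear independence over `ZMod p`. -/
theorem h9_hli_of_sat (p : ℕ) {d : ℕ} (b : Fin d → (Additive (Gamma0 N) →+ ℤ))
    (hsat : ∀ c : Fin d → ℤ,
      (∀ γ : Gamma0 N, (p : ℤ) ∣ ∑ j, c j * b j (Additive.ofMul γ)) → ∀ j, (p : ℤ) ∣ c j) :
    LinearIndependent (ZMod p) (fun j => (Int.castAddHom (ZMod p)).comp (b j)) := by
  rw [Fintype.linearIndependent_iff]
  intro g hg j
  choose c hc using fun j => ZMod.intCast_surjective (g j)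
  have h1 : ∀ γ : Gamma0 N, (p : ℤ) ∣ ∑ j, c j * b j (Additive.ofMul γ) := by
    intro γ
    rw [← ZMod.intCast_zmod_eq_zero_iff_dvd]
    have h2 := DFunLike.congr_fun hg (Additive.ofMul γ)
    simp only [AddMonoidHom.finsetSum_apply, AddMonoidHom.smul_apply, smul_eq_mul,
      AddMonoidHom.comp_apply, Int.coe_castAddHom, AddMonoidHom.zero_apply] at h2
    rw [Int.cast_sum, ← h2]
    refine Finset.sum_congr rfl fun j _ => ?_
    rw [Int.cast_mul, hc j]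
  have h3 := hsat c h1 j
  rw [← hc j]
  exact (ZMod.intCast_zmod_eq_zero_iff_dvd _ _).mpr h3

/-- **(A) [KSYS]** with the saturation hypothesis. -/
theorem h9_ksys_sat (N p : ℕ) [NeZero N] (hp : p ≠ 0) (e : AlgebraicClosure ℚ →+* ℂ) {d : ℕ}
    (b : Fin d → (Additive (Gamma0 N) →+ ℤ)) (hb : ∀ j, IsParabolicHom (Gamma0 N) (b j))
    (hsat : ∀ c : Fin d → ℤ,
      (∀ γ : Gamma0 N, (p : ℤ) ∣ ∑ j, c j * b j (Additive.ofMul γ)) → ∀ j, (p : ℤ) ∣ c j)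
    (t : ℕ → Matrix (Fin d) (Fin d) ℤ)
    (hcos : ∀ (l : ℕ) [Fact l.Prime], ¬ l ∣ N → ∀ (γ : Gamma0 N)
        (σ : Equiv.Perm (OnePoint (ZMod l))) (γ' : OnePoint (ZMod l) → SL(2, ℤ))
        (h : CosetData (tA l) (tB l) (tD l) N (γ : SL(2, ℤ)) σ γ'), ∀ j,
        ∑ i, b j (Additive.ofMul (⟨γ' i, h.1 i⟩ : Gamma0 N))
          = ∑ k, t l k j * b k (Additive.ofMul γ)) :
    ∃ κ : Fin d → h18Tate p (JZero N),
      (∀ j n, KumRel N (p ^ n) e (h9zeta p n) ((κ j : ℕ → JZero N) n) (b j)) ∧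
      (∀ c : Fin d → ℤ, ∑ j, c j • (κ j : ℕ → JZero N) 1 = 0 → ∀ j, (p : ℤ) ∣ c j) ∧
      ∀ (ℓ : ℕ) (hℓ : ℓ.Prime), ¬ ℓ ∣ N → ∀ j n,
        heckeOperatorBar N ⟨ℓ, hℓ⟩ ((κ j : ℕ → JZero N) n)
          = ∑ i, t ℓ i j • (κ i : ℕ → JZero N) n :=
  h9_ksys N p hp e b hb (h9_hli_of_sat p b hsat) t hcos

/-- **(A) [KSYS] at a finite level `m`** (for W9): classes `x_j` killed by `p ^ m`,
independent modulo `p ^ m`, on which `T_ℓ` acts by the matrices `t ℓ`. -/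
theorem h9_ksys_level (N p : ℕ) [NeZero N] (hp : p ≠ 0) (e : AlgebraicClosure ℚ →+* ℂ)
    (m : ℕ) {d : ℕ}
    (b : Fin d → (Additive (Gamma0 N) →+ ℤ)) (hb : ∀ j, IsParabolicHom (Gamma0 N) (b j))
    (hsat : ∀ c : Fin d → ℤ,
      (∀ γ : Gamma0 N, ((p ^ m : ℕ) : ℤ) ∣ ∑ j, c j * b j (Additive.ofMul γ)) →
      ∀ j, ((p ^ m : ℕ) : ℤ) ∣ c j)
    (t : ℕ → Matrix (Fin d) (Fin d) ℤ)
    (hcos : ∀ (l : ℕ) [Fact l.Prime], ¬ l ∣ N → ∀ (γ : Gamma0 N)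
        (σ : Equiv.Perm (OnePoint (ZMod l))) (γ' : OnePoint (ZMod l) → SL(2, ℤ))
        (h : CosetData (tA l) (tB l) (tD l) N (γ : SL(2, ℤ)) σ γ'), ∀ j,
        ∑ i, b j (Additive.ofMul (⟨γ' i, h.1 i⟩ : Gamma0 N))
          = ∑ k, t l k j * b k (Additive.ofMul γ)) :
    ∃ x : Fin d → JZero N,
      (∀ j, KumRel N (p ^ m) e (h9zeta p m) (x j) (b j)) ∧
      (∀ j, p ^ m • x j = 0) ∧
      (∀ c : Fin d → ℤ, ∑ j, c j • x j = 0 → ∀ j, ((p ^ m : ℕ) : ℤ) ∣ c j) ∧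
      ∀ (ℓ : ℕ) (hℓ : ℓ.Prime), ¬ ℓ ∣ N → ∀ j,
        heckeOperatorBar N ⟨ℓ, hℓ⟩ (x j) = ∑ i, t ℓ i j • x i := by
  refine ⟨fun j => h9K N p e m ⟨b j, hb j⟩, fun j => h9K_spec hp m ⟨b j, hb j⟩,
    fun j => h9K_torsion hp m ⟨b j, hb j⟩, fun c hc j => ?_, fun ℓ hℓ hℓN j => ?_⟩
  · exact h9K_indep_of_sat hp m (fun j => ⟨b j, hb j⟩) hsat c hc j
  · haveI : Fact ℓ.Prime := ⟨hℓ⟩
    exact h9K_matrix_final hp m ⟨ℓ, hℓ⟩ hℓN (fun j => ⟨b j, hb j⟩) (t ℓ)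
      (fun γ σ γ' h j => hcos ℓ hℓN γ σ γ' h j) j

/-! ### The instance for helper23's basis of `Lam` -/

open Fermat.Agent.S30x.Ev.H23

/-- the reductions of helper23's basis are linearly independent over `ZMod p`. -/
theorem h9_hli_mat (N p : ℕ) [NeZero N] :
    LinearIndependent (ZMod p) (fun j => (Int.castAddHom (ZMod p)).comp (h23mB N j)) :=
  h9_hli_of_sat p (h23mB N) (h23mB_indep N p)

/-- **the Kummer system of helper23's basis**: `κ_j = (h9K N p e n (b_j))_n`. -/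
def h9kap (N p : ℕ) [NeZero N] (hp : p ≠ 0) (e : AlgebraicClosure ℚ →+* ℂ)
    (j : Fin (h23mRank N)) : h18Tate p (JZero N) :=
  h9kappa N p hp e ⟨h23mB N j, h23mB_par N j⟩

theorem h9kap_apply (N p : ℕ) [NeZero N] (hp : p ≠ 0) (e : AlgebraicClosure ℚ →+* ℂ)
    (j : Fin (h23mRank N)) (n : ℕ) :
    (h9kap N p hp e j : ℕ → JZero N) n = h9K N p e n ⟨h23mB N j, h23mB_par N j⟩ := rfl

/-- the Kummer relation of the components. -/
theorem h9kap_spec (N p : ℕ) [NeZero N] (hp : p ≠ 0) (e : AlgebraicClosure ℚ →+* ℂ)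
    (j : Fin (h23mRank N)) (n : ℕ) :
    KumRel N (p ^ n) e (h9zeta p n) ((h9kap N p hp e j : ℕ → JZero N) n) (h23mB N j) :=
  h9kappa_spec hp ⟨h23mB N j, h23mB_par N j⟩ n

/-- **`hind`** of helper18's (M6) / helper25's `h25_rel_inst` for `κ = h9kap`. -/
theorem h9kap_hind (N p : ℕ) [NeZero N] (hp : p ≠ 0) (e : AlgebraicClosure ℚ →+* ℂ)
    (c : Fin (h23mRank N) → ℤ)
    (hc : ∑ j, c j • (h9kap N p hp e j : ℕ → JZero N) 1 = 0) (j : Fin (h23mRank N)) :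
    (p : ℤ) ∣ c j :=
  h9kappa_hind hp (fun j => ⟨h23mB N j, h23mB_par N j⟩) (h9_hli_mat N p) c hc j

/-- **`hT`** of helper25's `h25_rel_inst` (= `hA` of helper18's (M6)) for `κ = h9kap`,
`t = h23mT N`. -/
theorem h9kap_hT (N p : ℕ) [NeZero N] (hp : p ≠ 0) (e : AlgebraicClosure ℚ →+* ℂ)
    (ℓ : ℕ) (hℓ : ℓ.Prime) (hℓN : ¬ ℓ ∣ N) (j : Fin (h23mRank N)) (n : ℕ) :
    heckeOperatorBar N ⟨ℓ, hℓ⟩ ((h9kap N p hp e j : ℕ → JZero N) n)
      = ∑ i, h23mT N ℓ i j • (h9kap N p hp e i : ℕ → JZero N) n :=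
  h9kappa_hT hp (fun j => ⟨h23mB N j, h23mB_par N j⟩) (h23mT N)
    (fun l _ hlN γ σ γ' h j => h23mT_coset N l hlN γ σ γ' h j) ℓ hℓ hℓN j n

/-- the components are `p`-power torsion. -/
theorem h9kap_torsion (N p : ℕ) [NeZero N] (hp : p ≠ 0) (e : AlgebraicClosure ℚ →+* ℂ)
    (j : Fin (h23mRank N)) (n : ℕ) : p ^ n • (h9kap N p hp e j : ℕ → JZero N) n = 0 :=
  h9K_torsion hp n _

/-- independence modulo `p ^ n` of the `n`-th layer. -/
theorem h9kap_indep_level (N p : ℕ) [NeZero N] (hp : p ≠ 0) (e : AlgebraicClosure ℚ →+* ℂ)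
    (n : ℕ) (c : Fin (h23mRank N) → ℤ)
    (hc : ∑ j, c j • (h9kap N p hp e j : ℕ → JZero N) n = 0) (j : Fin (h23mRank N)) :
    ((p ^ n : ℕ) : ℤ) ∣ c j :=
  h9K_indep_of_sat hp n (fun j => ⟨h23mB N j, h23mB_par N j⟩) (h23mB_indep N (p ^ n)) c hc j

/-- **(A) [KSYS] for helper23's (MAT)**, packaged. -/
theorem h9_ksys_mat (N p : ℕ) [NeZero N] (hp : p ≠ 0) (e : AlgebraicClosure ℚ →+* ℂ) :
    ∃ κ : Fin (h23mRank N) → h18Tate p (JZero N),
      (∀ j n, KumRel N (p ^ n) e (h9zeta p n) ((κ j : ℕ → JZero N) n) (h23mB N j)) ∧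
      (∀ c : Fin (h23mRank N) → ℤ, ∑ j, c j • (κ j : ℕ → JZero N) 1 = 0 →
        ∀ j, (p : ℤ) ∣ c j) ∧
      ∀ (ℓ : ℕ) (hℓ : ℓ.Prime), ¬ ℓ ∣ N → ∀ j n,
        heckeOperatorBar N ⟨ℓ, hℓ⟩ ((κ j : ℕ → JZero N) n)
          = ∑ i, h23mT N ℓ i j • (κ i : ℕ → JZero N) n :=
  ⟨h9kap N p hp e, h9kap_spec N p hp e, h9kap_hind N p hp e, h9kap_hT N p hp e⟩

end Fermat.Agent.S30x.Kum.H9
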