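import Fermat.Agent.S42x.Kum.H12_KumRel

/-!
# W8 (S30), package (KN), leaf (K-pow) (helper9): compatibility of the Kummer relation in the
exponent

`KumRel N (p * m) e ζ x b → KumRel N m e (ζ ^ p) (p • x) b` : the same function `f`, the divisor
`p • D` and the root `y ^ p`.  No hypothesis on `p`, `m`, `ζ`.

Also the variants with the factors in the other order, and for the exponents `p ^ (n + 1)`, `p ^ n`.
-/

set_option autoImplicit false
set_option synthInstance.maxHeartbeats 400000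
set_option maxHeartbeats 1000000

open AlgebraicCurve IntermediateField ModularCurve UpperHalfPlane CongruenceSubgroup
open Fermat.Agent.S24.Mer Fermat.Agent.S42x.Kum.H12
open scoped MatrixGroups

noncomputable section

namespace Fermat.Agent.S30x.Kum.H9

variable {N : ℕ} {e : AlgebraicClosure ℚ →+* ℂ} {ζ : ℂ}

/-- **(K-pow)**: a Kummer relation at the exponent `p * m` gives one at the exponent `m`. -/
theorem h9_kumRel_pow (p m : ℕ) {x : JZero N} {b : Additive (Gamma0 N) →+ ℤ}
    (h : KumRel N (p * m) e ζ x b) : KumRel N m e (ζ ^ p) (p • x) b := by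
  obtain ⟨f, D, y, hf, hD, hx, hy, hγ⟩ := h
  refine ⟨f, p • D, y ^ p, hf, fun v => ?_, ?_, ?_, fun γ => ?_⟩
  · rw [← hD v, AddSubgroup.coe_nsmul, Finsupp.smul_apply, nsmul_eq_mul]
    rw [Nat.cast_mul]
    ring
  · rw [← hx]
    show (QuotientAddGroup.mk (p • D) : Pic0 _ _) = p • (QuotientAddGroup.mk D : Pic0 _ _)
    rw [QuotientAddGroup.mk_nsmul]
  · rw [← pow_mul, hy]
  · have hz : (ζ ^ b (Additive.ofMul γ)) ^ p = (ζ ^ p) ^ b (Additive.ofMul γ) := by
      rw [← zpow_natCast (ζ ^ b (Additive.ofMul γ)) p, ← zpow_mul,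
        mul_comm (b (Additive.ofMul γ)) (p : ℤ), zpow_mul, zpow_natCast]
    rw [map_pow, hγ γ, mul_pow, ← map_pow, hz]

/-- **(K-pow)**, the factors in the other order. -/
theorem h9_kumRel_pow' (p m : ℕ) {x : JZero N} {b : Additive (Gamma0 N) →+ ℤ}
    (h : KumRel N (m * p) e ζ x b) : KumRel N m e (ζ ^ p) (p • x) b := by
  rw [mul_comm] at h
  exact h9_kumRel_pow p m h

/-- **(K-pow)** along the tower of the exponents `p ^ n`. -/
theorem h9_kumRel_pow_succ (p n : ℕ) {x : JZero N} {b : Additive (Gamma0 N) →+ ℤ}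
    (h : KumRel N (p ^ (n + 1)) e ζ x b) : KumRel N (p ^ n) e (ζ ^ p) (p • x) b := by
  rw [pow_succ'] at h
  exact h9_kumRel_pow p (p ^ n) h

/-- **(K-pow)**, iterated: from the exponent `p ^ (n + k)` down to `p ^ n`. -/
theorem h9_kumRel_pow_add (p n k : ℕ) {x : JZero N} {b : Additive (Gamma0 N) →+ ℤ}
    (h : KumRel N (p ^ (n + k)) e ζ x b) :
    KumRel N (p ^ n) e (ζ ^ p ^ k) (p ^ k • x) b := by
  rw [pow_add, mul_comm] at h
  exact h9_kumRel_pow (p ^ k) (p ^ n) h

end Fermat.Agent.S30x.Kum.H9
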