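import Fermat.Agent.S42x.Kum.H8_StKExAll
import Fermat.Agent.S42x.Root.H9_Uniq
import Fermat.Agent.S42x.Heq.H23_Asm
import Fermat.Agent.S30x.Kum.H9_KPow

/-!
# W8 (S30) / W9 (S31), package (KN), leaf (A) [KSYS] (helper9): the compatible Kummer system

`Lam = parabolicHoms ℤ (Γ₀(N)) ℤ`, `ζ_n = exp (2 π i / p ^ n)`.  For every `n` the Kummer relation
at the exponent `p ^ n` is the graph of a homomorphism

`h9K N p e n : Lam →+ J₀(N)`

(existence: helper8's `stKEx_all`; uniqueness: `h9_kumRel_uniq`), with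

* `h9K_spec`    : `KumRel N (p ^ n) e ζ_n (h9K n b) b`;
* `h9K_unique`  : `KumRel N (p ^ n) e ζ_n x b → x = h9K n b`;
* `h9K_zero`    : `h9K 0 b = 0`;
* `h9K_succ`    : `p • h9K (n + 1) b = h9K n b`   (from (K-pow));
* `h9K_torsion` : `p ^ n • h9K n b = 0`;
* `h9K_inj`     : `h9K n b = 0 → p ^ n ∣ b γ`;
* `h9K_hecke`   : `T_ℓ (h9K n b) = h9K n b'` when `b'` is given by the coset formula
                  (from the analytic half `StHeckeAn` of (K-hecke), the only hypothesis);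
* `h9K_matrix`, `h9K_indep` : the matrix forms for a family `b : Fin d → Lam`.
-/

set_option autoImplicit false
set_option synthInstance.maxHeartbeats 400000
set_option maxHeartbeats 1000000
set_option linter.style.haveILetI false

open AlgebraicCurve IntermediateField ModularCurve ModularCurve.Period UpperHalfPlane
open CongruenceSubgroup
open Fermat.Agent.S24.Mer Fermat.Agent.S22 Fermat.Agent.S16x.Low.H5
open Fermat.Agent.S42x.Kum.H12
open scoped MatrixGroups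

noncomputable section

namespace Fermat.Agent.S30x.Kum.H9

/-! ### The compatible system of roots of unity -/

/-- `ζ_n = exp (2 π i / p ^ n)`. -/
def h9zeta (p n : ℕ) : ℂ := Complex.exp (2 * Real.pi * Complex.I / ((p ^ n : ℕ) : ℂ))

theorem h9zeta_isPrimitiveRoot (p n : ℕ) (hp : p ≠ 0) : IsPrimitiveRoot (h9zeta p n) (p ^ n) :=
  Complex.isPrimitiveRoot_exp _ (pow_ne_zero n hp)

theorem h9zeta_ne_zero (p n : ℕ) : h9zeta p n ≠ 0 := Complex.exp_ne_zero _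

theorem h9zeta_pow_eq_one (p n : ℕ) (hp : p ≠ 0) : h9zeta p n ^ (p ^ n) = 1 :=
  (h9zeta_isPrimitiveRoot p n hp).pow_eq_one

theorem h9zeta_succ_pow (p n : ℕ) (hp : p ≠ 0) : h9zeta p (n + 1) ^ p = h9zeta p n := by
  unfold h9zeta
  rw [← Complex.exp_nat_mul]
  congr 1
  have hp' : (p : ℂ) ≠ 0 := Nat.cast_ne_zero.mpr hp
  have hpn : ((p : ℂ)) ^ n ≠ 0 := pow_ne_zero n hp'
  push_cast
  field_simp
  ring

theorem h9zeta_zero (p : ℕ) : h9zeta p 0 = 1 := by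
  unfold h9zeta
  rw [pow_zero, Nat.cast_one, div_one, Complex.exp_two_pi_mul_I]

/-! ### The Kummer homomorphisms -/

variable (N : ℕ) [NeZero N] (p : ℕ) (e : AlgebraicClosure ℚ →+* ℂ)

/-- existence and uniqueness of the Kummer class at the exponent `p ^ n`. -/
theorem h9_kum_existsUnique (hp : p ≠ 0) (n : ℕ) (b : Additive (Gamma0 N) →+ ℤ)
    (hb : IsParabolicHom (Gamma0 N) b) :
    ∃! x : JZero N, KumRel N (p ^ n) e (h9zeta p n) x b := by
  obtain ⟨x, hx⟩ := Fermat.Agent.S42x.Kum.H8.stKEx_all N (p ^ n) (pow_ne_zero n hp) e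
    (h9zeta p n) (h9zeta_pow_eq_one p n hp) b hb
  refine ⟨x, hx, fun x' hx' => ?_⟩
  have h1 := kumRel_sub (h9zeta_ne_zero p n) hx' hx
  rw [sub_self] at h1
  exact sub_eq_zero.mp
    (Fermat.Agent.S42x.Root.H9.h9_kumRel_uniq N (p ^ n) (pow_ne_zero n hp) e _ _ h1)

/-- the Kummer class of a parabolic homomorphism at the exponent `p ^ n` (`0` if `p = 0`). -/
def h9Kfun (n : ℕ) (b : parabolicHoms ℤ (Gamma0 N) ℤ) : JZero N :=
  if hp : p ≠ 0 then (h9_kum_existsUnique N p e hp n b.1 b.2).choose else 0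

variable {N p e}

theorem h9Kfun_spec (hp : p ≠ 0) (n : ℕ) (b : parabolicHoms ℤ (Gamma0 N) ℤ) :
    KumRel N (p ^ n) e (h9zeta p n) (h9Kfun N p e n b) b.1 := by
  unfold h9Kfun
  rw [dif_pos hp]
  exact (h9_kum_existsUnique N p e hp n b.1 b.2).choose_spec.1

theorem h9Kfun_unique (hp : p ≠ 0) (n : ℕ) (b : parabolicHoms ℤ (Gamma0 N) ℤ) (x : JZero N)
    (hx : KumRel N (p ^ n) e (h9zeta p n) x b.1) : x = h9Kfun N p e n b := by
  unfold h9Kfun
  rw [dif_pos hp]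
  exact (h9_kum_existsUnique N p e hp n b.1 b.2).choose_spec.2 x hx

variable (N p e)

/-- **the Kummer homomorphism** at the exponent `p ^ n`. -/
def h9K (n : ℕ) : parabolicHoms ℤ (Gamma0 N) ℤ →+ JZero N where
  toFun := h9Kfun N p e n
  map_zero' := by
    by_cases hp : p ≠ 0
    · exact (h9Kfun_unique hp n 0 0 kumRel_zero).symm
    · unfold h9Kfun
      rw [dif_neg hp]
  map_add' := by
    intro b b'
    by_cases hp : p ≠ 0
    · exact (h9Kfun_unique hp n (b + b') _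
        (kumRel_add (h9zeta_ne_zero p n) (h9Kfun_spec hp n b) (h9Kfun_spec hp n b'))).symm
    · unfold h9Kfun
      rw [dif_neg hp, dif_neg hp, dif_neg hp, add_zero]

variable {N p e}

/-- the defining property. -/
theorem h9K_spec (hp : p ≠ 0) (n : ℕ) (b : parabolicHoms ℤ (Gamma0 N) ℤ) :
    KumRel N (p ^ n) e (h9zeta p n) (h9K N p e n b) b.1 :=
  h9Kfun_spec hp n b

/-- the characterisation. -/
theorem h9K_unique (hp : p ≠ 0) (n : ℕ) (b : parabolicHoms ℤ (Gamma0 N) ℤ) (x : JZero N)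
    (hx : KumRel N (p ^ n) e (h9zeta p n) x b.1) : x = h9K N p e n b :=
  h9Kfun_unique hp n b x hx

theorem h9K_iff (hp : p ≠ 0) (n : ℕ) (b : parabolicHoms ℤ (Gamma0 N) ℤ) (x : JZero N) :
    KumRel N (p ^ n) e (h9zeta p n) x b.1 ↔ x = h9K N p e n b :=
  ⟨h9K_unique hp n b x, fun h => h ▸ h9K_spec hp n b⟩

/-- the class at the exponent `p ^ n` is killed by `p ^ n`. -/
theorem h9K_torsion (hp : p ≠ 0) (n : ℕ) (b : parabolicHoms ℤ (Gamma0 N) ℤ) :
    p ^ n • h9K N p e n b = 0 :=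
  kumRel_torsion (h9K_spec hp n b)

/-- level `0`. -/
theorem h9K_zero (hp : p ≠ 0) (b : parabolicHoms ℤ (Gamma0 N) ℤ) : h9K N p e 0 b = 0 := by
  have h := h9K_torsion (e := e) hp 0 b
  rwa [pow_zero, one_nsmul] at h

/-- **compatibility**. -/
theorem h9K_succ (hp : p ≠ 0) (n : ℕ) (b : parabolicHoms ℤ (Gamma0 N) ℤ) :
    p • h9K N p e (n + 1) b = h9K N p e n b := by
  have h := h9_kumRel_pow_succ p n (h9K_spec (e := e) hp (n + 1) b)
  rw [h9zeta_succ_pow p n hp] at h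
  exact h9K_unique hp n b _ h

/-- compatibility, iterated. -/
theorem h9K_add_pow (hp : p ≠ 0) (n k : ℕ) (b : parabolicHoms ℤ (Gamma0 N) ℤ) :
    p ^ k • h9K N p e (n + k) b = h9K N p e n b := by
  induction k with
  | zero => rw [pow_zero, one_nsmul, add_zero]
  | succ k ih =>
    rw [pow_succ, mul_smul, ← add_assoc, h9K_succ hp, ih]

/-- **injectivity**: the kernel of `h9K n` is `p ^ n Lam`. -/
theorem h9K_inj (hp : p ≠ 0) (n : ℕ) (b : parabolicHoms ℤ (Gamma0 N) ℤ)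
    (h : h9K N p e n b = 0) (γ : Gamma0 N) : ((p ^ n : ℕ) : ℤ) ∣ b.1 (Additive.ofMul γ) := by
  have h1 := h9K_spec (e := e) hp n b
  rw [h] at h1
  exact kumRel_inj_easy (pow_ne_zero n hp) (h9zeta_isPrimitiveRoot p n hp) h1 γ

theorem h9K_zsmul (n : ℕ) (c : ℤ) (b : parabolicHoms ℤ (Gamma0 N) ℤ) :
    h9K N p e n (c • b) = c • h9K N p e n b :=
  map_zsmul _ _ _

theorem h9K_sum (n : ℕ) {ι : Type*} (s : Finset ι) (c : ι → ℤ)
    (b : ι → parabolicHoms ℤ (Gamma0 N) ℤ) :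
    h9K N p e n (∑ i ∈ s, c i • b i) = ∑ i ∈ s, c i • h9K N p e n (b i) := by
  rw [map_sum]
  exact Finset.sum_congr rfl fun i _ => map_zsmul _ _ _

/-! ### Hecke equivariance -/

/-- **(K-hecke)** at the exponent `p ^ n`, for `ℓ ∤ N` (no condition `ℓ ≠ p`). -/
theorem h9_kumRel_hecke {m : ℕ} {ζ : ℂ}
    (han : Fermat.Agent.S42x.Heq.H23.StHeckeAn N m e ζ) (ℓ : Nat.Primes) (hℓN : ¬ (ℓ : ℕ) ∣ N)
    (x : JZero N) (b b' : Additive (Gamma0 N) →+ ℤ) (hxb : KumRel N m e ζ x b)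
    (hcos : haveI : Fact (ℓ : ℕ).Prime := ⟨ℓ.2⟩
       ∀ (γ : Gamma0 N) (σ : Equiv.Perm (OnePoint (ZMod (ℓ : ℕ))))
        (γ' : OnePoint (ZMod (ℓ : ℕ)) → SL(2, ℤ))
        (h : CosetData (tA ℓ) (tB ℓ) (tD ℓ) N (γ : SL(2, ℤ)) σ γ'),
        ∑ i, b (Additive.ofMul (⟨γ' i, h.1 i⟩ : Gamma0 N)) = b' (Additive.ofMul γ)) :
    KumRel N m e ζ (heckeOperatorBar N ℓ x) b' := by
  obtain ⟨f, D, y, hf, hD, hx, hy, hγ⟩ := hxb
  obtain ⟨D', hTD, hnorm, hD'⟩ := Fermat.Agent.S42x.Heq.H23.h23_hecke_div N ℓ m f hf D hD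
  obtain ⟨y', hy', hγ'⟩ := han ℓ hℓN f y b b' hf hy hγ hcos
  exact ⟨_, D', y', hnorm, hD', by rw [← hx, hTD], hy', hγ'⟩

/-- **Hecke equivariance of the Kummer homomorphism.** -/
theorem h9K_hecke (hp : p ≠ 0) (n : ℕ)
    (han : Fermat.Agent.S42x.Heq.H23.StHeckeAn N (p ^ n) e (h9zeta p n))
    (ℓ : Nat.Primes) (hℓN : ¬ (ℓ : ℕ) ∣ N) (b b' : parabolicHoms ℤ (Gamma0 N) ℤ)
    (hcos : haveI : Fact (ℓ : ℕ).Prime := ⟨ℓ.2⟩
       ∀ (γ : Gamma0 N) (σ : Equiv.Perm (OnePoint (ZMod (ℓ : ℕ))))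
        (γ' : OnePoint (ZMod (ℓ : ℕ)) → SL(2, ℤ))
        (h : CosetData (tA ℓ) (tB ℓ) (tD ℓ) N (γ : SL(2, ℤ)) σ γ'),
        ∑ i, b.1 (Additive.ofMul (⟨γ' i, h.1 i⟩ : Gamma0 N)) = b'.1 (Additive.ofMul γ)) :
    heckeOperatorBar N ℓ (h9K N p e n b) = h9K N p e n b' :=
  h9K_unique hp n b' _ (h9_kumRel_hecke han ℓ hℓN _ b.1 b'.1 (h9K_spec hp n b) hcos)

/-! ### Matrix forms -/

/-- **Hecke equivariance, matrix form** (the shape of `h23_top_eigen`). -/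
theorem h9K_matrix (hp : p ≠ 0) (n : ℕ)
    (han : Fermat.Agent.S42x.Heq.H23.StHeckeAn N (p ^ n) e (h9zeta p n))
    (ℓ : Nat.Primes) (hℓN : ¬ (ℓ : ℕ) ∣ N) {d : ℕ}
    (b : Fin d → parabolicHoms ℤ (Gamma0 N) ℤ) (t : Matrix (Fin d) (Fin d) ℤ)
    (hcos : haveI : Fact (ℓ : ℕ).Prime := ⟨ℓ.2⟩
       ∀ (γ : Gamma0 N) (σ : Equiv.Perm (OnePoint (ZMod (ℓ : ℕ))))
        (γ' : OnePoint (ZMod (ℓ : ℕ)) → SL(2, ℤ))
        (h : CosetData (tA ℓ) (tB ℓ) (tD ℓ) N (γ : SL(2, ℤ)) σ γ'), ∀ j,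
        ∑ i, (b j).1 (Additive.ofMul (⟨γ' i, h.1 i⟩ : Gamma0 N))
          = ∑ k, t k j * (b k).1 (Additive.ofMul γ)) (j : Fin d) :
    heckeOperatorBar N ℓ (h9K N p e n (b j)) = ∑ i, t i j • h9K N p e n (b i) := by
  rw [← h9K_sum n Finset.univ (fun i => t i j) b]
  refine h9K_hecke hp n han ℓ hℓN (b j) _ ?_
  intro γ σ γ' h
  rw [hcos γ σ γ' h j]
  simp only [Submodule.coe_sum, Submodule.coe_smul, AddMonoidHom.finsetSum_apply,
    AddMonoidHom.smul_apply, smul_eq_mul]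

/-- **independence modulo `p`** of the first layer. -/
theorem h9K_indep (hp : p ≠ 0) {d : ℕ} (b : Fin d → parabolicHoms ℤ (Gamma0 N) ℤ)
    (hli : LinearIndependent (ZMod p) (fun j => (Int.castAddHom (ZMod p)).comp (b j).1))
    (c : Fin d → ℤ) (hc : ∑ j, c j • h9K N p e 1 (b j) = 0) (j : Fin d) : (p : ℤ) ∣ c j := by
  rw [← h9K_sum 1 Finset.univ c b] at hc
  have h2 := h9K_inj hp 1 _ hc
  rw [Fintype.linearIndependent_iff] at hli
  have h3 := hli (fun j => ((c j : ℤ) : ZMod p)) (by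
    refine AddMonoidHom.ext fun γ => ?_
    have h4 := h2 (Additive.toMul γ)
    rw [pow_one, ← ZMod.intCast_zmod_eq_zero_iff_dvd] at h4
    simp only [Submodule.coe_sum, Submodule.coe_smul, AddMonoidHom.finsetSum_apply,
      AddMonoidHom.smul_apply, smul_eq_mul, Int.cast_sum, Int.cast_mul, ofMul_toMul] at h4
    simpa only [AddMonoidHom.finsetSum_apply, AddMonoidHom.smul_apply, smul_eq_mul,
      AddMonoidHom.comp_apply, Int.coe_castAddHom, AddMonoidHom.zero_apply] using h4) j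
  exact (ZMod.intCast_zmod_eq_zero_iff_dvd _ _).mp h3

/-- **independence modulo `p ^ n`** of the `n`-th layer, from a saturation hypothesis on the
family `b` (e.g. a `ℤ`-basis of `Lam`). -/
theorem h9K_indep_of_sat (hp : p ≠ 0) (n : ℕ) {d : ℕ}
    (b : Fin d → parabolicHoms ℤ (Gamma0 N) ℤ)
    (hsat : ∀ c : Fin d → ℤ,
      (∀ γ : Gamma0 N, ((p ^ n : ℕ) : ℤ) ∣ ∑ j, c j * (b j).1 (Additive.ofMul γ)) →
      ∀ j, ((p ^ n : ℕ) : ℤ) ∣ c j)
    (c : Fin d → ℤ) (hc : ∑ j, c j • h9K N p e n (b j) = 0) (j : Fin d) :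
    ((p ^ n : ℕ) : ℤ) ∣ c j := by
  rw [← h9K_sum n Finset.univ c b] at hc
  refine hsat c (fun γ => ?_) j
  have h2 := h9K_inj hp n _ hc γ
  simpa only [Submodule.coe_sum, Submodule.coe_smul, AddMonoidHom.finsetSum_apply,
    AddMonoidHom.smul_apply, smul_eq_mul] using h2

/-- the kernel of `h9K n`, as an equivalence: `h9K n b = 0 ↔ b ∈ p ^ n Lam`. -/
theorem h9K_eq_zero_of_smul (hp : p ≠ 0) (n : ℕ) (b : parabolicHoms ℤ (Gamma0 N) ℤ) :
    h9K N p e n ((p ^ n : ℕ) • b) = 0 := by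
  rw [map_nsmul, h9K_torsion hp]

end Fermat.Agent.S30x.Kum.H9
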