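import Fermat.Agent.S30x.Kum.H9_KSysTop
import Fermat.Agent.S42x.Heq.H26_HeckeAn

/-!
# W8 (S30) / W9 (S31), leaf (A) [KSYS], hypothesis-free (helper9)

With helper26's `stHeckeAn` (W7 (KH-AN)) the Hecke clauses of the compatible Kummer system hold
without hypotheses:

* `h9K_hecke_final`, `h9K_matrix_final` : Hecke equivariance of `h9K N p e n`;
* `h9kappa_hT` : the hypothesis `hT` of helper25's `h25_rel_inst` / `hA` of helper18's (M6);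
* `h9_ksys` : the packaged system for the data `(b, t)` of `h23_top_eigen`;
* `h9_kumRel_hecke_final` : (K-hecke) for the Kummer relation at any exponent, `ℓ ∤ N`.
-/

set_option autoImplicit false
set_option synthInstance.maxHeartbeats 400000
set_option maxHeartbeats 1000000
set_option linter.style.haveILetI false

open AlgebraicCurve IntermediateField ModularCurve ModularCurve.Period UpperHalfPlane
open CongruenceSubgroup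
open Fermat.Agent.S24.Mer Fermat.Agent.S22 Fermat.Agent.S16x.Low.H5
open Fermat.Agent.S42x.Kum.H12 Fermat.Agent.S30x.Mod.H18
open scoped MatrixGroups

noncomputable section

namespace Fermat.Agent.S30x.Kum.H9

variable {N : ℕ} [NeZero N] {p : ℕ} {e : AlgebraicClosure ℚ →+* ℂ}

/-- **(K-hecke)** at any exponent `m`, for `ℓ ∤ N`, hypothesis-free. -/
theorem h9_kumRel_hecke_final {m : ℕ} {ζ : ℂ} (ℓ : Nat.Primes) (hℓN : ¬ (ℓ : ℕ) ∣ N)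
    (x : JZero N) (b b' : Additive (Gamma0 N) →+ ℤ) (hxb : KumRel N m e ζ x b)
    (hcos : haveI : Fact (ℓ : ℕ).Prime := ⟨ℓ.2⟩
       ∀ (γ : Gamma0 N) (σ : Equiv.Perm (OnePoint (ZMod (ℓ : ℕ))))
        (γ' : OnePoint (ZMod (ℓ : ℕ)) → SL(2, ℤ))
        (h : CosetData (tA ℓ) (tB ℓ) (tD ℓ) N (γ : SL(2, ℤ)) σ γ'),
        ∑ i, b (Additive.ofMul (⟨γ' i, h.1 i⟩ : Gamma0 N)) = b' (Additive.ofMul γ)) :
    KumRel N m e ζ (heckeOperatorBar N ℓ x) b' :=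
  h9_kumRel_hecke (Fermat.Agent.S42x.Heq.H26.stHeckeAn N m e ζ) ℓ hℓN x b b' hxb hcos

/-- **Hecke equivariance of the Kummer homomorphism**, hypothesis-free. -/
theorem h9K_hecke_final (hp : p ≠ 0) (n : ℕ) (ℓ : Nat.Primes) (hℓN : ¬ (ℓ : ℕ) ∣ N)
    (b b' : parabolicHoms ℤ (Gamma0 N) ℤ)
    (hcos : haveI : Fact (ℓ : ℕ).Prime := ⟨ℓ.2⟩
       ∀ (γ : Gamma0 N) (σ : Equiv.Perm (OnePoint (ZMod (ℓ : ℕ))))
        (γ' : OnePoint (ZMod (ℓ : ℕ)) → SL(2, ℤ))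
        (h : CosetData (tA ℓ) (tB ℓ) (tD ℓ) N (γ : SL(2, ℤ)) σ γ'),
        ∑ i, b.1 (Additive.ofMul (⟨γ' i, h.1 i⟩ : Gamma0 N)) = b'.1 (Additive.ofMul γ)) :
    heckeOperatorBar N ℓ (h9K N p e n b) = h9K N p e n b' :=
  h9K_hecke hp n (Fermat.Agent.S42x.Heq.H26.stHeckeAn N (p ^ n) e (h9zeta p n)) ℓ hℓN b b' hcos

/-- **Hecke equivariance, matrix form**, hypothesis-free. -/
theorem h9K_matrix_final (hp : p ≠ 0) (n : ℕ) (ℓ : Nat.Primes) (hℓN : ¬ (ℓ : ℕ) ∣ N) {d : ℕ}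
    (b : Fin d → parabolicHoms ℤ (Gamma0 N) ℤ) (t : Matrix (Fin d) (Fin d) ℤ)
    (hcos : haveI : Fact (ℓ : ℕ).Prime := ⟨ℓ.2⟩
       ∀ (γ : Gamma0 N) (σ : Equiv.Perm (OnePoint (ZMod (ℓ : ℕ))))
        (γ' : OnePoint (ZMod (ℓ : ℕ)) → SL(2, ℤ))
        (h : CosetData (tA ℓ) (tB ℓ) (tD ℓ) N (γ : SL(2, ℤ)) σ γ'), ∀ j,
        ∑ i, (b j).1 (Additive.ofMul (⟨γ' i, h.1 i⟩ : Gamma0 N))
          = ∑ k, t k j * (b k).1 (Additive.ofMul γ)) (j : Fin d) :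
    heckeOperatorBar N ℓ (h9K N p e n (b j)) = ∑ i, t i j • h9K N p e n (b i) :=
  h9K_matrix hp n (Fermat.Agent.S42x.Heq.H26.stHeckeAn N (p ^ n) e (h9zeta p n)) ℓ hℓN b t hcos j

/-- **`hT`** of helper25's `h25_rel_inst` (= `hA` of helper18's (M6)), hypothesis-free. -/
theorem h9kappa_hT (hp : p ≠ 0) {d : ℕ} (b : Fin d → parabolicHoms ℤ (Gamma0 N) ℤ)
    (t : ℕ → Matrix (Fin d) (Fin d) ℤ)
    (hcos : ∀ (l : ℕ) [Fact l.Prime], ¬ l ∣ N → ∀ (γ : Gamma0 N)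
        (σ : Equiv.Perm (OnePoint (ZMod l))) (γ' : OnePoint (ZMod l) → SL(2, ℤ))
        (h : CosetData (tA l) (tB l) (tD l) N (γ : SL(2, ℤ)) σ γ'), ∀ j,
        ∑ i, (b j).1 (Additive.ofMul (⟨γ' i, h.1 i⟩ : Gamma0 N))
          = ∑ k, t l k j * (b k).1 (Additive.ofMul γ))
    (ℓ : ℕ) (hℓ : ℓ.Prime) (hℓN : ¬ ℓ ∣ N) (j : Fin d) (n : ℕ) :
    heckeOperatorBar N ⟨ℓ, hℓ⟩ ((h9kappa N p hp e (b j) : ℕ → JZero N) n)
      = ∑ i, t ℓ i j • (h9kappa N p hp e (b i) : ℕ → JZero N) n := by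
  haveI : Fact ℓ.Prime := ⟨hℓ⟩
  exact h9K_matrix_final hp n ⟨ℓ, hℓ⟩ hℓN b (t ℓ) (fun γ σ γ' h j => hcos ℓ hℓN γ σ γ' h j) j

/-- **(A) [KSYS]**, packaged for the data `(b, t)` of `h23_top_eigen`: a family of compatible
sequences `κ_j` in `J₀(N)`, independent modulo `p`, on which `T_ℓ` acts by the matrices
`t ℓ`; the components satisfy the Kummer relation. -/
theorem h9_ksys (N p : ℕ) [NeZero N] (hp : p ≠ 0) (e : AlgebraicClosure ℚ →+* ℂ) {d : ℕ}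
    (b : Fin d → (Additive (Gamma0 N) →+ ℤ)) (hb : ∀ j, IsParabolicHom (Gamma0 N) (b j))
    (hli : LinearIndependent (ZMod p) (fun j => (Int.castAddHom (ZMod p)).comp (b j)))
    (t : ℕ → Matrix (Fin d) (Fin d) ℤ)
    (hcos : ∀ (l : ℕ) [Fact l.Prime], ¬ l ∣ N → ∀ (γ : Gamma0 N)
        (σ : Equiv.Perm (OnePoint (ZMod l))) (γ' : OnePoint (ZMod l) → SL(2, ℤ))
        (h : CosetData (tA l) (tB l) (tD l) N (γ : SL(2, ℤ)) σ γ'), ∀ j,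
        ∑ i, b j (Additive.ofMul (⟨γ' i, h.1 i⟩ : Gamma0 N))
          = ∑ k, t l k j * b k (Additive.ofMul γ)) :
    ∃ κ : Fin d → h18Tate p (JZero N),
      (∀ j n, KumRel N (p ^ n) e (h9zeta p n) ((κ j : ℕ → JZero N) n) (b j)) ∧
      (∀ c : Fin d → ℤ, ∑ j, c j • (κ j : ℕ → JZero N) 1 = 0 → ∀ j, (p : ℤ) ∣ c j) ∧
      ∀ (ℓ : ℕ) (hℓ : ℓ.Prime), ¬ ℓ ∣ N → ∀ j n,
        heckeOperatorBar N ⟨ℓ, hℓ⟩ ((κ j : ℕ → JZero N) n)
          = ∑ i, t ℓ i j • (κ i : ℕ → JZero N) n :=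
  ⟨fun j => h9kappa N p hp e ⟨b j, hb j⟩,
    fun j n => h9kappa_spec hp ⟨b j, hb j⟩ n,
    fun c hc j => h9kappa_hind hp (fun j => ⟨b j, hb j⟩) hli c hc j,
    fun ℓ hℓ hℓN j n => h9kappa_hT hp (fun j => ⟨b j, hb j⟩) t hcos ℓ hℓ hℓN j n⟩

end Fermat.Agent.S30x.Kum.H9
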