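import Fermat.Agent.S30x.Kum.H9_KSys
import Fermat.Agent.S30x.Mod.H18_Tate

/-!
# W8 (S30), leaf (A) [KSYS], plug into (C) [MOD] (helper9)

The compatible Kummer system as a homomorphism into helper18's group of compatible sequences:

`h9kappa N p hp e : Lam →+ h18Tate p (J₀(N))`,  `(h9kappa b) n = h9K N p e n b`,

with the two hypotheses of helper18's (M6) (`h18_vec_ne_zero'`, `h18_primitive`, `h18Psi_vec`):

* `h9kappa_hind` : independence modulo `p` of the first layer;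
* `h9kappa_hA`   : the matrix of `T_ℓ` on the family `κ_j = h9kappa (b j)`.
-/

set_option autoImplicit false
set_option synthInstance.maxHeartbeats 400000
set_option maxHeartbeats 1000000
set_option linter.style.haveILetI false

open AlgebraicCurve IntermediateField ModularCurve ModularCurve.Period UpperHalfPlane
open CongruenceSubgroup
open Fermat.Agent.S24.Mer Fermat.Agent.S22 Fermat.Agent.S16x.Low.H5
open Fermat.Agent.S42x.Kum.H12 Fermat.Agent.S30x.Mod.H18
open scoped MatrixGroups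

noncomputable section

namespace Fermat.Agent.S30x.Kum.H9

variable (N : ℕ) [NeZero N] (p : ℕ) (hp : p ≠ 0) (e : AlgebraicClosure ℚ →+* ℂ)

/-- **the Kummer system** as a homomorphism to the compatible sequences. -/
def h9kappa : parabolicHoms ℤ (Gamma0 N) ℤ →+ h18Tate p (JZero N) where
  toFun b := ⟨fun n => h9K N p e n b, h9K_zero hp b, fun n => h9K_succ hp n b⟩
  map_zero' := h18Tate_ext fun n => map_zero (h9K N p e n)
  map_add' b b' := h18Tate_ext fun n => map_add (h9K N p e n) b b'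

variable {N p e}

@[simp] theorem h9kappa_apply (b : parabolicHoms ℤ (Gamma0 N) ℤ) (n : ℕ) :
    (h9kappa N p hp e b : ℕ → JZero N) n = h9K N p e n b := rfl

/-- the Kummer relation of the components. -/
theorem h9kappa_spec (b : parabolicHoms ℤ (Gamma0 N) ℤ) (n : ℕ) :
    KumRel N (p ^ n) e (h9zeta p n) ((h9kappa N p hp e b : ℕ → JZero N) n) b.1 :=
  h9K_spec hp n b

/-- `h9kappa` is injective (for `p ≥ 2`). -/
theorem h9kappa_injective (hp1 : 1 < p) : Function.Injective (h9kappa N p hp e) := by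
  rw [injective_iff_map_eq_zero]
  intro b hb
  refine Subtype.ext (AddMonoidHom.ext fun γ => ?_)
  have h1 : ∀ n : ℕ, ((p ^ n : ℕ) : ℤ) ∣ b.1 γ := by
    intro n
    have h2 : h9K N p e n b = 0 := by
      rw [← h9kappa_apply hp b n, hb]
      rfl
    exact h9K_inj hp n b h2 (Additive.toMul γ)
  by_contra hne
  have hne' : b.1 γ ≠ 0 := hne
  -- `p ^ n ≤ |b γ|` for all `n` is impossible
  have h3 : ∀ n : ℕ, p ^ n ≤ (b.1 γ).natAbs := by
    intro n
    have := Int.natAbs_dvd_natAbs.mpr (h1 n)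
    rw [Int.natAbs_natCast] at this
    exact Nat.le_of_dvd (Int.natAbs_pos.mpr hne') this
  have h4 := h3 (b.1 γ).natAbs
  have h5 : (b.1 γ).natAbs < p ^ (b.1 γ).natAbs := Nat.lt_pow_self hp1
  omega

/-- **(M6), `hind`**: independence modulo `p` of the first layer. -/
theorem h9kappa_hind {d : ℕ} (b : Fin d → parabolicHoms ℤ (Gamma0 N) ℤ)
    (hli : LinearIndependent (ZMod p) (fun j => (Int.castAddHom (ZMod p)).comp (b j).1))
    (c : Fin d → ℤ)
    (hc : ∑ j, c j • (h9kappa N p hp e (b j) : ℕ → JZero N) 1 = 0) (j : Fin d) :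
    (p : ℤ) ∣ c j :=
  h9K_indep hp b hli c hc j

/-- **(M6), `hA`**: the matrix of `T_ℓ` on the family `κ_j`. -/
theorem h9kappa_hA (han : ∀ n, Fermat.Agent.S42x.Heq.H23.StHeckeAn N (p ^ n) e (h9zeta p n))
    (ℓ : Nat.Primes) (hℓN : ¬ (ℓ : ℕ) ∣ N) {d : ℕ}
    (b : Fin d → parabolicHoms ℤ (Gamma0 N) ℤ) (t : Matrix (Fin d) (Fin d) ℤ)
    (hcos : haveI : Fact (ℓ : ℕ).Prime := ⟨ℓ.2⟩
       ∀ (γ : Gamma0 N) (σ : Equiv.Perm (OnePoint (ZMod (ℓ : ℕ))))
        (γ' : OnePoint (ZMod (ℓ : ℕ)) → SL(2, ℤ))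
        (h : CosetData (tA ℓ) (tB ℓ) (tD ℓ) N (γ : SL(2, ℤ)) σ γ'), ∀ j,
        ∑ i, (b j).1 (Additive.ofMul (⟨γ' i, h.1 i⟩ : Gamma0 N))
          = ∑ k, t k j * (b k).1 (Additive.ofMul γ)) (j : Fin d) (n : ℕ) :
    (heckeOperatorBar N ℓ).toAddMonoidHom ((h9kappa N p hp e (b j) : ℕ → JZero N) n)
      = ∑ i, t i j • (h9kappa N p hp e (b i) : ℕ → JZero N) n :=
  h9K_matrix hp n (han n) ℓ hℓN b t hcos j

end Fermat.Agent.S30x.Kum.H9
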